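import Mathlib.NumberTheory.SumTwoSquares
import Mathlib.NumberTheory.Padics.PadicVal.Basic
import Mathlib.Data.Rat.Lemmas
import Mathlib.FieldTheory.Separable
import Mathlib.Analysis.Real.Sqrt
import Mathlib.Tactic.LinearCombination
import Mathlib.Tactic.NormNum.Prime

/-!
# A Châtelet surface without weak approximation

On `y² + z² = (4 x - 7) (x² - 2)` a rational point with `x = m / n < 7/4` would make `n`, `7 n - 4 m`
and `2 n² - m²` sums of two squares, as no prime `≡ 3 (mod 4)` divides two of them; one of them is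
`3` modulo `4`.
-/

set_option autoImplicit false
set_option linter.style.haveILetI false

namespace FA.ApproximationFailures

/-- The surface. -/
def OnChatelet {R : Type*} [CommRing R] (x y z : R) : Prop :=
  y ^ 2 + z ^ 2 = (4 * x - 7) * (x ^ 2 - 2)

/-- If no prime `≡ 3 (mod 4)` divides both factors of a product which is, up to a square, a sum of two
squares then the factors are sums of two squares modulo `4`. -/
theorem not_three_of_mul {a b e r s : ℕ} (ha : a ≠ 0) (hb : b ≠ 0) (he : e ≠ 0)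
    (hab : ∀ q : ℕ, q.Prime → q % 4 = 3 → q ∣ a → ¬q ∣ b) (h : a * b * e ^ 2 = r ^ 2 + s ^ 2) :
    a % 4 ≠ 3 := by
  obtain ⟨x, y, hxy⟩ : ∃ x y, a = x ^ 2 + y ^ 2 := by
    rw [Nat.eq_sq_add_sq_iff]
    intro q hq h3
    haveI : Fact q.Prime := ⟨Nat.prime_of_mem_primeFactors hq⟩
    have hqa : q ∣ a := Nat.dvd_of_mem_primeFactors hq
    have hne : a * b * e ^ 2 ≠ 0 := mul_ne_zero (mul_ne_zero ha hb) (pow_ne_zero 2 he)
    have heven := Nat.eq_sq_add_sq_iff.1 ⟨r, s, h⟩ q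
      (Nat.mem_primeFactors.2 ⟨Fact.out, hqa.trans ((dvd_mul_right a b).trans (dvd_mul_right _ _)),
        hne⟩) h3
    rw [padicValNat.mul (mul_ne_zero ha hb) (pow_ne_zero 2 he), padicValNat.mul ha hb,
      padicValNat.eq_zero_of_not_dvd (hab q Fact.out h3 hqa), padicValNat.pow, add_zero] at heven
    exact (Nat.even_add.1 heven).2 (even_two_mul _)
  have key : ∀ u v : ℕ, (u ^ 2 + v ^ 2) % 4 ≠ 3 := fun u v => by
    have hu := Nat.mod_lt u (by norm_num : 4 > 0)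
    have hv := Nat.mod_lt v (by norm_num : 4 > 0)
    rw [Nat.add_mod, Nat.pow_mod u, Nat.pow_mod v]
    interval_cases u % 4 <;> interval_cases v % 4 <;> norm_num
  rw [hxy]
  exact key x y

/-- **Every rational point has `x ≥ 7/4`.** -/
theorem le_of_rational_point {x y z : ℚ} (h : OnChatelet x y z) : 7 / 4 ≤ x := by
  by_contra hx
  rw [not_le] at hx
  simp only [OnChatelet] at h
  set m := x.num with hm
  set n := x.den with hn
  have hn0 : (0 : ℚ) < n := by exact_mod_cast x.den_pos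
  have hxm : x * n = m := Rat.mul_den_eq_num x
  have hA : (0 : ℤ) < 7 * n - 4 * m := by
    have : (0 : ℚ) < 7 * n - 4 * m := by rw [← hxm]; nlinarith
    exact_mod_cast this
  have hB : (0 : ℤ) < 2 * (n : ℤ) ^ 2 - m ^ 2 := by
    have hle : x ^ 2 ≤ 2 := by nlinarith [sq_nonneg y, sq_nonneg z]
    have hne : x ^ 2 ≠ 2 := fun e => by
      have hsq : IsSquare ((2 : ℤ) : ℚ) := ⟨x, by push_cast; rw [← e, sq]⟩
      obtain ⟨r, hr⟩ := Rat.isSquare_intCast_iff.1 hsq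
      have h2 : r.natAbs * r.natAbs = 2 := by rw [← Int.natAbs_mul, ← hr]; rfl
      have h3 : r.natAbs ≤ 2 := h2 ▸ Nat.le_mul_self _
      interval_cases r.natAbs <;> omega
    have : (0 : ℚ) < 2 * (n : ℚ) ^ 2 - (m : ℚ) ^ 2 := by
      rw [← hxm, mul_pow]; nlinarith [lt_of_le_of_ne hle hne, mul_pos hn0 hn0]
    exact_mod_cast this
  obtain ⟨a, ha⟩ := Int.eq_ofNat_of_zero_le hA.le
  obtain ⟨b, hb⟩ := Int.eq_ofNat_of_zero_le hB.le
  have hnn : n ≠ 0 := x.den_nz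
  have ha0 : a ≠ 0 := by omega
  have hb0 : b ≠ 0 := fun e => hB.ne' (by rw [hb, e]; rfl)
  have hnat : n * (a * b) * (y.den * z.den) ^ 2 =
      (y.num.natAbs * z.den * n ^ 2) ^ 2 + (z.num.natAbs * y.den * n ^ 2) ^ 2 := by
    have e : (((n * (a * b) * (y.den * z.den) ^ 2 : ℕ) : ℤ) : ℚ) =
        (((y.num.natAbs * z.den * n ^ 2) ^ 2 + (z.num.natAbs * y.den * n ^ 2) ^ 2 : ℕ) : ℤ) := by
      have hy := Rat.mul_den_eq_num y
      have hz := Rat.mul_den_eq_num z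
      have ha' : (a : ℚ) = 7 * n - 4 * m := by exact_mod_cast ha.symm
      have hb' : (b : ℚ) = 2 * (n : ℚ) ^ 2 - (m : ℚ) ^ 2 := by exact_mod_cast hb.symm
      push_cast [Nat.cast_natAbs]
      rw [mul_pow (|(y.num : ℚ)| * _), mul_pow (|(z.num : ℚ)| * _), mul_pow (|(y.num : ℚ)|),
        mul_pow (|(z.num : ℚ)|), sq_abs, sq_abs, ← hy, ← hz, ha', hb', ← hxm]
      linear_combination -((n : ℚ) ^ 4 * (y.den : ℚ) ^ 2 * (z.den : ℚ) ^ 2) * h
    exact_mod_cast e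
  have he : y.den * z.den ≠ 0 := mul_ne_zero y.den_nz z.den_nz
  -- no prime `≡ 3 (mod 4)` divides two of `n, a, b`
  have hcop : ∀ q : ℕ, q.Prime → q % 4 = 3 → ¬(q ∣ n ∧ q ∣ a) ∧ ¬(q ∣ n ∧ q ∣ b) ∧ ¬(q ∣ a ∧ q ∣ b) := by
    intro q hq h3
    have hqi : Prime (q : ℤ) := Nat.prime_iff_prime_int.1 hq
    have hnm : ∀ (_ : (q : ℤ) ∣ n), ¬(q : ℤ) ∣ m := fun h1 h2 => hq.ne_one
      (Nat.eq_one_of_dvd_coprimes x.reduced (Int.natCast_dvd.1 h2) (Int.natCast_dvd_natCast.1 h1))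
    have cast : ∀ k : ℕ, q ∣ k → (q : ℤ) ∣ k := fun k hk => Int.natCast_dvd_natCast.2 hk
    refine ⟨fun ⟨h1, h2⟩ => hnm (cast _ h1) ?_, fun ⟨h1, h2⟩ => hnm (cast _ h1) ?_,
      fun ⟨h1, h2⟩ => ?_⟩
    · have : (q : ℤ) ∣ 4 * m := by
        rw [show 4 * m = 7 * (n : ℤ) - a by rw [← ha]; ring]
        exact dvd_sub ((cast _ h1).mul_left 7) (cast _ h2)
      refine (hqi.dvd_mul.1 this).resolve_left fun h4 => ?_
      have := Nat.le_of_dvd (by norm_num) (Int.natCast_dvd_natCast.1 (show ((q : ℤ) ∣ ((4 : ℕ) : ℤ)) from h4))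
      interval_cases q <;> norm_num at *
    · refine hqi.dvd_of_dvd_pow (n := 2) ?_
      rw [show m ^ 2 = 2 * (n : ℤ) ^ 2 - b by rw [← hb]; ring]
      exact dvd_sub (((cast _ h1).pow two_ne_zero).mul_left 2) (cast _ h2)
    · have h17 : (q : ℤ) ∣ ((17 : ℕ) : ℤ) * (n : ℤ) ^ 2 := by
        rw [show ((17 : ℕ) : ℤ) * (n : ℤ) ^ 2 = (a : ℤ) * (7 * n + 4 * m) - 16 * b by
          rw [← ha, ← hb]; push_cast; ring]
        exact dvd_sub ((cast _ h1).mul_right _) ((cast _ h2).mul_left 16)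
      rcases hqi.dvd_mul.1 h17 with h4 | h4
      · have := (Nat.prime_dvd_prime_iff_eq hq (by norm_num)).1 (Int.natCast_dvd_natCast.1 h4)
        omega
      · have hqn := hqi.dvd_of_dvd_pow h4
        refine hnm hqn (hqi.dvd_of_dvd_pow (n := 2) ?_)
        rw [show m ^ 2 = 2 * (n : ℤ) ^ 2 - b by rw [← hb]; ring]
        exact dvd_sub ((hqn.pow two_ne_zero).mul_left 2) (cast _ h2)
  have r₀ := not_three_of_mul hnn (mul_ne_zero ha0 hb0) he (fun q hq h3 h1 h2 =>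
    (hq.dvd_mul.1 h2).elim (fun h => (hcop q hq h3).1 ⟨h1, h⟩) fun h => (hcop q hq h3).2.1 ⟨h1, h⟩)
    hnat
  have r₁ := not_three_of_mul ha0 (mul_ne_zero hnn hb0) he (fun q hq h3 h1 h2 =>
    (hq.dvd_mul.1 h2).elim (fun h => (hcop q hq h3).1 ⟨h, h1⟩) fun h => (hcop q hq h3).2.2 ⟨h1, h⟩)
    (by rw [← hnat]; ring)
  have r₂ := not_three_of_mul hb0 (mul_ne_zero hnn ha0) he (fun q hq h3 h1 h2 =>
    (hq.dvd_mul.1 h2).elim (fun h => (hcop q hq h3).2.1 ⟨h, h1⟩) fun h => (hcop q hq h3).2.2 ⟨h, h1⟩)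
    (by rw [← hnat]; ring)
  have h2' : n % 2 = 0 ∨ n % 2 = 1 := Nat.mod_two_eq_zero_or_one n
  rcases h2' with he2 | ho2
  · obtain ⟨k, hk⟩ : ∃ k, n = 2 * k := ⟨n / 2, by omega⟩
    have hm2 : m % 2 = 1 := by
      rcases Int.emod_two_eq_zero_or_one m with e | e
      · exact absurd (Nat.eq_one_of_dvd_coprimes x.reduced
          (Int.natCast_dvd.1 (Int.dvd_of_emod_eq_zero e : ((2 : ℕ) : ℤ) ∣ m)) ⟨k, hk⟩) (by norm_num)
      · exact e
    obtain ⟨j, hj⟩ : ∃ j, m = 2 * j + 1 := ⟨m / 2, by omega⟩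
    have : (b : ℤ) = 4 * (2 * (k : ℤ) ^ 2 - j ^ 2 - j) - 1 := by rw [← hb, hk, hj]; push_cast; ring
    omega
  · omega

/-- The surface has infinitely many rational points. -/
theorem infinite_rational_points :
    {P : ℚ × ℚ × ℚ | OnChatelet P.1 P.2.1 P.2.2}.Infinite := by
  refine Set.infinite_of_injective_forall_mem
    (f := fun t : ℕ => ((2 : ℚ), (1 - (t : ℚ) ^ 2 - 2 * t) / (1 + (t : ℚ) ^ 2),
      (1 - (t : ℚ) ^ 2 + 2 * t) / (1 + (t : ℚ) ^ 2))) (fun s t hst => ?_) fun t => ?_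
  · simp only [Prod.mk.injEq, true_and] at hst
    have hs : (0 : ℚ) < 1 + (s : ℚ) ^ 2 := by positivity
    have ht : (0 : ℚ) < 1 + (t : ℚ) ^ 2 := by positivity
    obtain ⟨e₁, e₂⟩ := hst
    field_simp at e₁ e₂
    have e3 : ((s ^ 2 : ℕ) : ℚ) = ((t ^ 2 : ℕ) : ℚ) := by
      push_cast; linear_combination (-1 / 4 : ℚ) * e₁ + (-1 / 4 : ℚ) * e₂
    exact Nat.pow_left_injective two_ne_zero (Nat.cast_injective e3)
  · show OnChatelet (2 : ℚ) _ _
    have : (0 : ℚ) < 1 + (t : ℚ) ^ 2 := by positivity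
    simp only [OnChatelet]
    field_simp
    ring

/-- A real point outside the closure of the rational points. -/
theorem exists_real_point_not_closure :
    ∃ P : ℝ × ℝ × ℝ, OnChatelet P.1 P.2.1 P.2.2 ∧ P ∉ closure
      ((fun Q : ℚ × ℚ × ℚ => ((Q.1 : ℝ), (Q.2.1 : ℝ), (Q.2.2 : ℝ))) ''
        {Q | OnChatelet Q.1 Q.2.1 Q.2.2}) := by
  refine ⟨(0, Real.sqrt 14, 0), ?_, fun h => ?_⟩
  · simp only [OnChatelet]
    rw [Real.sq_sqrt (by norm_num)]
    norm_num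
  · have hsub : closure ((fun Q : ℚ × ℚ × ℚ => ((Q.1 : ℝ), (Q.2.1 : ℝ), (Q.2.2 : ℝ))) ''
        {Q | OnChatelet Q.1 Q.2.1 Q.2.2}) ⊆ {P : ℝ × ℝ × ℝ | (7 / 4 : ℝ) ≤ P.1} := by
      refine closure_minimal ?_ (isClosed_le continuous_const continuous_fst)
      rintro _ ⟨Q, hQ, rfl⟩
      show (7 / 4 : ℝ) ≤ (Q.1 : ℝ)
      have := (Rat.cast_le (K := ℝ)).2 (le_of_rational_point hQ)
      push_cast at this
      exact this
    have : (7 / 4 : ℝ) ≤ 0 := hsub h
    norm_num at this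

open Polynomial in
/-- The cubic is separable. -/
theorem chatelet_separable :
    ((Polynomial.C (4 : ℚ) * Polynomial.X - Polynomial.C 7) *
      (Polynomial.X ^ 2 - Polynomial.C 2)).Separable := by
  have hlin : (Polynomial.C (4 : ℚ) * Polynomial.X - Polynomial.C 7).Separable := by
    refine ⟨0, Polynomial.C (1 / 4), ?_⟩
    simp [← Polynomial.C_mul]
  refine hlin.mul (separable_X_pow_sub_C (2 : ℚ) (by norm_num) (by norm_num))
    ⟨Polynomial.C (-1 / 17) * (Polynomial.C 4 * Polynomial.X + Polynomial.C 7),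
      Polynomial.C (16 / 17), ?_⟩
  have e : (Polynomial.C (1 / 17 : ℚ)) * Polynomial.C 17 = 1 := by
    rw [← Polynomial.C_mul]; norm_num
  rw [show (-1 / 17 : ℚ) = -(1 / 17) by norm_num, show (16 / 17 : ℚ) = 1 / 17 * 16 by norm_num,
    Polynomial.C_neg, Polynomial.C_mul, ← e]
  simp only [map_ofNat]
  ring

end FA.ApproximationFailures
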