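import Mathlib.NumberTheory.LegendreSymbol.QuadraticReciprocity
import Mathlib.NumberTheory.Padics.PadicIntegers
import Mathlib.Data.Nat.Factorization.Defs
import Mathlib.LinearAlgebra.Matrix.Determinant.Basic
import Mathlib.LinearAlgebra.Matrix.Notation
import Mathlib.Tactic.LinearCombination

/-!
# An indefinite ternary form and the integral Hasse principle

`-9 x² + 2 x y + 7 y² + 2 z² = 1` says `(x - y) (9 x + 7 y) = 2 z² - 1`; the divisors of `2 z² - 1`
are `± 1` modulo `8`, and this is impossible modulo `16`.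
-/

set_option autoImplicit false
set_option linter.style.haveILetI false

namespace FA.ApproximationFailures

/-- The equation. -/
def OnBR {R : Type*} [CommRing R] (x y z : R) : Prop :=
  -9 * x ^ 2 + 2 * x * y + 7 * y ^ 2 + 2 * z ^ 2 = 1

theorem eight_mul_table : ∀ a b : ZMod 16, (2 * a = 2 ∨ 2 * a = -2) → (2 * b = 2 ∨ 2 * b = -2) →
    (2 * (a * b) = 2 ∨ 2 * (a * b) = -2) := by decide

theorem sixteen_table : ∀ u z : ZMod 16, (2 * u = 2 ∨ 2 * u = -2) → u * (9 * u) ≠ 2 * z ^ 2 - 1 := by
  decide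

/-- **No integral solution.** -/
theorem br_no_integral (x y z : ℤ) : ¬OnBR x y z := by
  intro h
  simp only [OnBR] at h
  set N := 2 * z ^ 2 - 1 with hN
  have hfac : (x - y) * (9 * x + 7 * y) = N := by rw [hN]; linear_combination -h
  have hN0 : N ≠ 0 := by omega
  have hu0 : x - y ≠ 0 := fun e => hN0 (by rw [← hfac, e, zero_mul])
  let P : ℕ → Prop := fun m => 2 * (m : ZMod 16) = 2 ∨ 2 * (m : ZMod 16) = -2
  have key : P ((x - y).natAbs.factorization.prod (· ^ ·)) := by
    refine Finset.prod_induction _ P (fun a b ha hb => ?_) (Or.inl (by simp)) ?_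
    · simp only [P, Nat.cast_mul]; exact eight_mul_table _ _ ha hb
    intro q hq
    have hmem : q ∈ (x - y).natAbs.primeFactors := Nat.support_factorization _ ▸ hq
    haveI : Fact q.Prime := ⟨Nat.prime_of_mem_primeFactors hmem⟩
    have hqN : (q : ℤ) ∣ N := (Int.natCast_dvd.2 (Nat.dvd_of_mem_primeFactors hmem)).trans ⟨_, hfac.symm⟩
    have hq2 : q ≠ 2 := by
      rintro rfl
      rw [hN] at hqN
      omega
    have hsq : IsSquare (2 : ZMod q) := by
      refine ⟨2 * (z : ZMod q), ?_⟩
      rw [← ZMod.intCast_zmod_eq_zero_iff_dvd, hN] at hqN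
      push_cast at hqN
      linear_combination -2 * hqN
    have h8 := (ZMod.exists_sq_eq_two_iff hq2).1 hsq
    have hres : P q := by
      simp only [P]
      obtain ⟨k, hk⟩ : ∃ k, q = 8 * k + q % 8 := ⟨q / 8, by omega⟩
      rw [hk]
      push_cast
      rw [mul_add, ← mul_assoc, show (2 : ZMod 16) * 8 = 0 from rfl, zero_mul, zero_add]
      rcases h8 with e | e <;> rw [e] <;> decide
    simp only [P, Nat.cast_pow] at hres ⊢
    induction (x - y).natAbs.factorization q with
    | zero => exact Or.inl (by simp)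
    | succ e he => rw [pow_succ]; exact eight_mul_table _ _ he hres
  rw [Nat.prod_factorization_pow_eq_self (Int.natAbs_ne_zero.2 hu0)] at key
  have hu : 2 * ((x - y : ℤ) : ZMod 16) = 2 ∨ 2 * ((x - y : ℤ) : ZMod 16) = -2 := by
    simp only [P] at key
    have he := Int.natAbs_eq (x - y)
    generalize (x - y).natAbs = m at he key
    rcases he with e | e <;> rw [e]
    · simpa using key
    · rcases key with k | k
      · exact Or.inr (by push_cast; rw [mul_neg, k])
      · exact Or.inl (by push_cast; rw [mul_neg, k, neg_neg])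
  refine sixteen_table _ (z : ZMod 16) hu ?_
  have e := congrArg (Int.cast : ℤ → ZMod 16) hfac
  rw [hN] at e
  push_cast at e ⊢
  rw [← e, show (9 : ZMod 16) * ((x : ZMod 16) - y) = 9 * x + 7 * y by
    rw [mul_sub, sub_eq_add_neg, ← neg_mul, show (-9 : ZMod 16) = 7 from rfl]]

/-- A rational solution. -/
theorem br_rational : OnBR (3 / 8 : ℚ) (-5 / 8) 0 := by
  simp only [OnBR]; norm_num

/-- A solution in every `ℤ_p`. -/
theorem br_padic (p : ℕ) [Fact p.Prime] : ∃ x y z : ℤ_[p], OnBR x y z := by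
  have hunit : ∀ k : ℤ, ¬(p : ℤ) ∣ k → ∃ v : ℤ_[p], (k : ℤ_[p]) * v = 1 := fun k hk => by
    have : IsUnit (k : ℤ_[p]) := PadicInt.isUnit_iff.2
      (le_antisymm (PadicInt.norm_le_one _) (not_lt.1 fun hl =>
        hk ((PadicInt.norm_int_lt_one_iff_dvd k).1 hl)))
    exact this.exists_right_inv
  rcases eq_or_ne p 2 with rfl | hp
  · obtain ⟨v, hv⟩ := hunit 3 (by norm_num)
    refine ⟨4 * v, -5 * v, 1, ?_⟩
    simp only [OnBR]
    push_cast at hv
    linear_combination (-(3 * v + 1)) * hv
  · obtain ⟨v, hv⟩ := hunit 8 (fun hd => by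
      have h2 : p ∣ 2 := (Fact.out : p.Prime).dvd_of_dvd_pow (n := 3)
        (Int.natCast_dvd_natCast.1 (show (p : ℤ) ∣ ((2 ^ 3 : ℕ) : ℤ) from hd))
      exact hp ((Nat.prime_dvd_prime_iff_eq Fact.out Nat.prime_two).1 h2))
    refine ⟨3 * v, -5 * v, 0, ?_⟩
    simp only [OnBR]
    push_cast at hv
    linear_combination (8 * v + 1) * hv

/-- The form is nondegenerate. -/
theorem br_det : Matrix.det !![(-9 : ℚ), 1, 0; 1, 7, 0; 0, 0, 2] = -128 := by
  rw [Matrix.det_fin_three]
  simp
  norm_num

end FA.ApproximationFailures
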